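/-
P-CFT / [HASSE] row 946 HS-B2 (helper2): base change of the standard cyclic cocycle.

`M / K` finite Galois with generator `σ` of `Gal(M/K)`, `E ≥ K` arbitrary.  The cochain
`res_E infl std(σ, a)` on `G_E` is computed directly through the restriction
`r : G_E → Gal(M/K)`:

* `galBaseChangeSplit : GalBaseChangeSplitStatement` (`M ≤ E`: the cochain is `1`);
* `galBaseChange : GalBaseChangeStatement` (`[M : K] = p`, `M ⊄ E`: it is a level coboundary iff
  `a = ∏_{k<p} s^k y` with `y ∈ M E`, `s ∈ G_E` a lift of `σ`).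

No compositum over `E` is built: "⇐" is the explicit partial-norm cochain, "⇒" uses Hilbert 90
for level cocycles of `G_{ME}` (helper57) and a telescoping product.
-/
import Fermat.Agent.H97.Hasse.Interfaces
import Fermat.Agent.H81.Local.Infl
import Fermat.Agent.H57.CFT.H90Lvl

set_option autoImplicit false
set_option linter.style.haveILetI false
set_option linter.unusedSectionVars false
set_option synthInstance.maxHeartbeats 400000

namespace Fermat.Agent.H2

open Fermat.Agent.H13.Cft Fermat.Agent.H78.CFT Fermat.Agent.H61.CFT groupCohomology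
open Fermat.Agent.H97.Hasse

noncomputable section

section setup

variable {K : IntermediateField ℚ Qb} (M : IntermediateField K Qb) [FiniteDimensional K M]
  [IsGalois K M] {E : IntermediateField ℚ Qb} (hKE : K ≤ E)

/-- The restriction `G_E → Gal(M/K)` is the restriction of automorphisms. -/
theorem gbc_res_apply (g : E.fixingSubgroup) (z : M) :
    ((resEF K M (incl hKE g) z : M) : Qb) = (g : Qb ≃ₐ[ℚ] Qb) (z : Qb) :=
  Fermat.Agent.H81.Local.resEF_apply K M (incl hKE g) z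

/-- The value of the restricted inflated standard cochain. -/
theorem gbc_cochain_apply (σ : M ≃ₐ[K] M) (b : Mˣ) (g h : E.fixingSubgroup) :
    resCochain₂ hKE (inflE K M (stdCocycle σ b)) (g, h) =
      Units.map (algebraMap M Qb : M →* Qb) b ^
        ((dlog σ (resEF K M (incl hKE g)) + dlog σ (resEF K M (incl hKE h))) / orderOf σ) := by
  rw [resCochain₂_apply]
  show Units.map (algebraMap M Qb : M →* Qb) (stdCocycle σ b (_, _)) = _
  rw [stdCocycle_apply, map_pow]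

/-- `r g = 1` iff `g` fixes `M E`. -/
theorem gbc_res_eq_one_iff (g : E.fixingSubgroup) :
    resEF K M (incl hKE g) = 1 ↔
      (g : Qb ≃ₐ[ℚ] Qb) ∈ (M.restrictScalars ℚ ⊔ E).fixingSubgroup := by
  rw [IntermediateField.fixingSubgroup_sup, Subgroup.mem_inf]
  constructor
  · intro h
    refine ⟨?_, g.2⟩
    rw [IntermediateField.mem_fixingSubgroup_iff]
    intro z hz
    have := gbc_res_apply M hKE g ⟨z, hz⟩
    rw [h] at this
    exact this.symm
  · rintro ⟨h, -⟩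
    rw [IntermediateField.mem_fixingSubgroup_iff] at h
    apply AlgEquiv.ext
    intro z
    apply Subtype.ext
    rw [gbc_res_apply]
    exact h z z.2

/-- Elements of `G_E` with the same restriction to `M` agree on `M E`. -/
theorem gbc_act_eq {g g' : E.fixingSubgroup}
    (h : resEF K M (incl hKE g) = resEF K M (incl hKE g')) {y : Qb}
    (hy : y ∈ M.restrictScalars ℚ ⊔ E) :
    (g : Qb ≃ₐ[ℚ] Qb) y = (g' : Qb ≃ₐ[ℚ] Qb) y := by
  have h1 : resEF K M (incl hKE (g'⁻¹ * g)) = 1 := by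
    rw [map_mul, map_mul, map_inv, map_inv, h, inv_mul_cancel]
  rw [gbc_res_eq_one_iff, IntermediateField.mem_fixingSubgroup_iff] at h1
  have h2 := h1 y hy
  have h3 : ((g'⁻¹ * g : E.fixingSubgroup) : Qb ≃ₐ[ℚ] Qb) y =
      (g' : Qb ≃ₐ[ℚ] Qb).symm ((g : Qb ≃ₐ[ℚ] Qb) y) := rfl
  rw [h3] at h2
  have := congrArg (g' : Qb ≃ₐ[ℚ] Qb) h2
  rwa [AlgEquiv.apply_symm_apply] at this

end setup

/-! ### Partial norms along a lift of the generator -/

/-- Partial norms `∏_{k<m} s^k y` in `ℚ̄ˣ`. -/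
def gbcP (s : Qb ≃ₐ[ℚ] Qb) (y : Qbˣ) (m : ℕ) : Qbˣ :=
  ∏ k ∈ Finset.range m, actU (s ^ k) y

theorem gbcP_coe (s : Qb ≃ₐ[ℚ] Qb) (y : Qbˣ) (m : ℕ) :
    ((gbcP s y m : Qbˣ) : Qb) = ∏ k ∈ Finset.range m, (s ^ k) (y : Qb) := by
  rw [gbcP, Units.coe_prod]
  rfl

theorem gbcP_zero (s : Qb ≃ₐ[ℚ] Qb) (y : Qbˣ) : gbcP s y 0 = 1 := by
  simp [gbcP]

theorem gbcP_succ (s : Qb ≃ₐ[ℚ] Qb) (y : Qbˣ) (m : ℕ) :
    gbcP s y (m + 1) = gbcP s y m * actU (s ^ m) y := by
  rw [gbcP, Finset.prod_range_succ]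
  rfl

theorem gbcP_add (s : Qb ≃ₐ[ℚ] Qb) (y : Qbˣ) (i j : ℕ) :
    gbcP s y (i + j) = gbcP s y i * ∏ k ∈ Finset.range j, actU (s ^ (i + k)) y := by
  rw [gbcP, Finset.prod_range_add]
  rfl

theorem gbc_actU_mul (g h : Qb ≃ₐ[ℚ] Qb) (u : Qbˣ) : actU (g * h) u = actU g (actU h u) := rfl

theorem gbc_actU_one (u : Qbˣ) : actU (1 : Qb ≃ₐ[ℚ] Qb) u = u := rfl

section lift

variable {K : IntermediateField ℚ Qb} (M : IntermediateField K Qb) [FiniteDimensional K M]
  [IsGalois K M] {E : IntermediateField ℚ Qb} (hKE : K ≤ E)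

/-- `g ∈ G_E` with `r g = σ ^ i` acts on `s ^ k y` (`y ∈ M E`) as `s ^ i`. -/
theorem gbc_act_pow {σ : M ≃ₐ[K] M} {s : E.fixingSubgroup} (hs : resEF K M (incl hKE s) = σ)
    {y : Qbˣ} (hy : (y : Qb) ∈ M.restrictScalars ℚ ⊔ E) (g : E.fixingSubgroup) (i k : ℕ)
    (hg : resEF K M (incl hKE g) = σ ^ i) :
    actU (g : Qb ≃ₐ[ℚ] Qb) (actU ((s : Qb ≃ₐ[ℚ] Qb) ^ k) y) =
      actU ((s : Qb ≃ₐ[ℚ] Qb) ^ (i + k)) y := by
  apply Units.ext
  rw [coe_actU, coe_actU, coe_actU]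
  have h1 : resEF K M (incl hKE (g * s ^ k)) = resEF K M (incl hKE (s ^ (i + k))) := by
    rw [map_mul, map_mul, map_pow, map_pow, map_pow, map_pow, hs, hg, pow_add]
  exact gbc_act_eq M hKE h1 hy

/-- The explicit coboundary: "⇐" of `GalBaseChange` (for any cyclic `M / K`). -/
theorem gbc_coboundary_of_norm {σ : M ≃ₐ[K] M} (hσ : IsGen σ) (b : Mˣ)
    {s : E.fixingSubgroup} (hs : resEF K M (incl hKE s) = σ)
    {y : Qbˣ} (hy : (y : Qb) ∈ M.restrictScalars ℚ ⊔ E)
    (hN : Units.map (algebraMap M Qb : M →* Qb) b = gbcP (s : Qb ≃ₐ[ℚ] Qb) y (orderOf σ)) :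
    IsLvlMulCoboundary₂E E (resCochain₂ hKE (inflE K M (stdCocycle σ b))) := by
  refine ⟨fun g => gbcP (s : Qb ≃ₐ[ℚ] Qb) y (dlog σ (resEF K M (incl hKE g))),
    isLvlFun₁_res hKE (Fermat.Agent.H81.Local.isLvlFun₁_comp_resEF K M
      (fun τ => gbcP (s : Qb ≃ₐ[ℚ] Qb) y (dlog σ τ))), ?_⟩
  rintro ⟨g, h⟩
  rw [gbc_cochain_apply]
  show actU (g : Qb ≃ₐ[ℚ] Qb) (gbcP (s : Qb ≃ₐ[ℚ] Qb) y (dlog σ (resEF K M (incl hKE h)))) *
      gbcP (s : Qb ≃ₐ[ℚ] Qb) y (dlog σ (resEF K M (incl hKE g))) /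
      gbcP (s : Qb ≃ₐ[ℚ] Qb) y (dlog σ (resEF K M (incl hKE (g * h)))) = _
  rw [map_mul, map_mul, hσ.dlog_mul]
  set i := dlog σ (resEF K M (incl hKE g)) with hi
  set j := dlog σ (resEF K M (incl hKE h)) with hj
  set n := orderOf σ with hn
  set aQ := Units.map (algebraMap M Qb : M →* Qb) b with haQ
  have hgi : resEF K M (incl hKE g) = σ ^ i := (hσ.pow_dlog _).symm
  have h1 : actU (g : Qb ≃ₐ[ℚ] Qb) (gbcP (s : Qb ≃ₐ[ℚ] Qb) y j) =
      ∏ k ∈ Finset.range j, actU ((s : Qb ≃ₐ[ℚ] Qb) ^ (i + k)) y := by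
    rw [gbcP, map_prod]
    exact Finset.prod_congr rfl fun k _ => gbc_act_pow M hKE hs hy g i k hgi
  have h2 : gbcP (s : Qb ≃ₐ[ℚ] Qb) y (i + j) =
      gbcP (s : Qb ≃ₐ[ℚ] Qb) y i * actU (g : Qb ≃ₐ[ℚ] Qb) (gbcP (s : Qb ≃ₐ[ℚ] Qb) y j) := by
    rw [gbcP_add, h1]
  have hper : ∀ k : ℕ, actU ((s : Qb ≃ₐ[ℚ] Qb) ^ (n + k)) y = actU ((s : Qb ≃ₐ[ℚ] Qb) ^ k) y := by
    intro k
    have hsn : resEF K M (incl hKE (s ^ n)) = σ ^ 0 := by
      rw [map_pow, map_pow, hs, pow_orderOf_eq_one, pow_zero]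
    have := gbc_act_pow M hKE hs hy (s ^ n) 0 k hsn
    rw [zero_add] at this
    rw [← this, pow_add, gbc_actU_mul]
    rfl
  have h3 : ∀ m : ℕ, gbcP (s : Qb ≃ₐ[ℚ] Qb) y (n + m) = aQ * gbcP (s : Qb ≃ₐ[ℚ] Qb) y m := by
    intro m
    rw [gbcP_add, ← hN]
    congr 1
    exact Finset.prod_congr rfl fun k _ => hper k
  have h4 : ∀ q m : ℕ, gbcP (s : Qb ≃ₐ[ℚ] Qb) y (q * n + m) =
      aQ ^ q * gbcP (s : Qb ≃ₐ[ℚ] Qb) y m := by
    intro q
    induction q with
    | zero => intro m; simp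
    | succ q ih =>
        intro m
        rw [Nat.succ_mul, add_assoc, ih, h3, pow_succ, mul_assoc]
  have h5 : gbcP (s : Qb ≃ₐ[ℚ] Qb) y (i + j) =
      aQ ^ ((i + j) / n) * gbcP (s : Qb ≃ₐ[ℚ] Qb) y ((i + j) % n) := by
    rw [← h4, Nat.div_add_mod']
  rw [mul_comm, ← h2, h5, mul_div_assoc, div_self', mul_one]

/-- If `M ⊄ E` and `[M : K]` is prime, the restriction `G_E → Gal(M/K)` is surjective. -/
theorem gbc_exists_lift (p : ℕ) [Fact p.Prime] (hp : Module.finrank K M = p)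
    (hME : ¬ (M.restrictScalars ℚ ≤ E)) (σ : M ≃ₐ[K] M) :
    ∃ s : E.fixingSubgroup, resEF K M (incl hKE s) = σ := by
  haveI := Fermat.Agent.H57.CFT.isGalois_qb
  have hcard : Nat.card (M ≃ₐ[K] M) = p := by
    rw [IsGalois.card_aut_eq_finrank, hp]
  haveI : Fact (Nat.card (M ≃ₐ[K] M)).Prime := ⟨by rw [hcard]; exact Fact.out⟩
  rcases Subgroup.eq_bot_or_eq_top_of_prime_card ((resEF K M).comp (incl hKE)).range
    with h | h
  · exfalso
    apply hME
    have hall : ∀ g : E.fixingSubgroup, resEF K M (incl hKE g) = 1 := by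
      intro g
      have : ((resEF K M).comp (incl hKE)) g ∈ ((resEF K M).comp (incl hKE)).range :=
        ⟨g, rfl⟩
      rw [h, Subgroup.mem_bot] at this
      exact this
    have hle : E.fixingSubgroup ≤ (M.restrictScalars ℚ ⊔ E).fixingSubgroup := by
      intro g hg
      exact (gbc_res_eq_one_iff M hKE ⟨g, hg⟩).1 (hall ⟨g, hg⟩)
    have h2 : M.restrictScalars ℚ ⊔ E ≤ E := by
      have h3 : M.restrictScalars ℚ ⊔ E ≤ IntermediateField.fixedField E.fixingSubgroup :=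
        (IntermediateField.le_iff_le _ _).2 hle
      rwa [InfiniteGalois.fixedField_fixingSubgroup E] at h3
    exact le_sup_left.trans h2
  · have : σ ∈ ((resEF K M).comp (incl hKE)).range := by
      rw [h]
      exact Subgroup.mem_top σ
    obtain ⟨s, hs⟩ := this
    exact ⟨s, hs⟩

/-- "⇒" of `GalBaseChange`: a level coboundary gives a norm. -/
theorem gbc_norm_of_coboundary {σ : M ≃ₐ[K] M} (hσ : IsGen σ) (hn2 : 2 ≤ orderOf σ) (b : Mˣ)
    (s : E.fixingSubgroup) (hs : resEF K M (incl hKE s) = σ)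
    (hcob : IsLvlMulCoboundary₂E E (resCochain₂ hKE (inflE K M (stdCocycle σ b)))) :
    ∃ y : Qbˣ, (y : Qb) ∈ M.restrictScalars ℚ ⊔ E ∧
      Units.map (algebraMap M Qb : M →* Qb) b = gbcP (s : Qb ≃ₐ[ℚ] Qb) y (orderOf σ) := by
  haveI := Fermat.Agent.H57.CFT.isGalois_qb
  obtain ⟨x, hxl, hx⟩ := hcob
  set n := orderOf σ with hn
  set aQ := Units.map (algebraMap M Qb : M →* Qb) b with haQ
  set F₀ : IntermediateField ℚ Qb := M.restrictScalars ℚ ⊔ E with hF₀
  have hEF : E ≤ F₀ := le_sup_right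
  -- the coboundary relation
  have hrel : ∀ g h : E.fixingSubgroup,
      actU (g : Qb ≃ₐ[ℚ] Qb) (x h) * x g / x (g * h) =
        aQ ^ ((dlog σ (resEF K M (incl hKE g)) + dlog σ (resEF K M (incl hKE h))) / n) := by
    intro g h
    have := hx (g, h)
    rw [gbc_cochain_apply] at this
    exact this
  have hone : ∀ g : F₀.fixingSubgroup, resEF K M (incl hKE (incl hEF g)) = 1 := by
    intro g
    rw [gbc_res_eq_one_iff]
    exact g.2
  -- Hilbert 90 on `G_{ME}`
  have hcoc : IsMulCocycle₁E F₀ (fun g => x (incl hEF g)) := by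
    intro g h
    have := hrel (incl hEF g) (incl hEF h)
    rw [hone, hone, hσ.dlog_one] at this
    simp only [add_zero, Nat.zero_div, pow_zero] at this
    rw [div_eq_one] at this
    show x (incl hEF (g * h)) = _
    rw [map_mul]
    exact this.symm
  obtain ⟨z, hz⟩ := Fermat.Agent.H57.CFT.h90Lvl F₀ (fun g => x (incl hEF g))
    (isLvlFun₁_res hEF hxl) hcoc
  -- the normalised cochain
  set x₂ : E.fixingSubgroup → Qbˣ := fun g => x g * z / actU (g : Qb ≃ₐ[ℚ] Qb) z with hx₂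
  have hrel₂ : ∀ g h : E.fixingSubgroup,
      actU (g : Qb ≃ₐ[ℚ] Qb) (x₂ h) * x₂ g =
        aQ ^ ((dlog σ (resEF K M (incl hKE g)) + dlog σ (resEF K M (incl hKE h))) / n) *
          x₂ (g * h) := by
    intro g h
    rw [← hrel g h]
    simp only [hx₂, map_div, map_mul]
    have : actU ((g * h : E.fixingSubgroup) : Qb ≃ₐ[ℚ] Qb) z =
        actU (g : Qb ≃ₐ[ℚ] Qb) (actU (h : Qb ≃ₐ[ℚ] Qb) z) := rfl
    rw [this]
    generalize actU (g : Qb ≃ₐ[ℚ] Qb) (x h) = A
    generalize actU (g : Qb ≃ₐ[ℚ] Qb) (actU (h : Qb ≃ₐ[ℚ] Qb) z) = B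
    generalize actU (g : Qb ≃ₐ[ℚ] Qb) z = C
    generalize x (g * h) = D
    generalize x g = G
    have hab : ∀ (a b c d e f : Additive Qbˣ),
        (a + c - b) + (e + f - c) = (a + e - d) + (d + f - b) := by
      intros; abel
    exact hab (Additive.ofMul A) (Additive.ofMul B) (Additive.ofMul C) (Additive.ofMul D)
      (Additive.ofMul G) (Additive.ofMul z)
  have hker : ∀ g : E.fixingSubgroup, resEF K M (incl hKE g) = 1 → x₂ g = 1 := by
    intro g hg
    rw [gbc_res_eq_one_iff] at hg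
    have := hz ⟨(g : Qb ≃ₐ[ℚ] Qb), hg⟩
    have h1 : incl hEF ⟨(g : Qb ≃ₐ[ℚ] Qb), hg⟩ = g := Subtype.ext rfl
    simp only [h1] at this
    show x g * z / actU (g : Qb ≃ₐ[ℚ] Qb) z = 1
    rw [this]
    show actU (g : Qb ≃ₐ[ℚ] Qb) z / z * z / actU (g : Qb ≃ₐ[ℚ] Qb) z = 1
    rw [div_mul_cancel, div_self']
  have hdl : ∀ τ : M ≃ₐ[K] M, dlog σ τ / n = 0 := fun τ => Nat.div_eq_of_lt (hσ.dlog_lt τ)
  -- right invariance
  have hright : ∀ g h : E.fixingSubgroup, resEF K M (incl hKE h) = 1 → x₂ (g * h) = x₂ g := by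
    intro g h hh
    have := hrel₂ g h
    rw [hker h hh, hh, hσ.dlog_one, add_zero, hdl, pow_zero, one_mul, map_one, one_mul] at this
    exact this.symm
  -- left semi-invariance
  have hleft : ∀ g h : E.fixingSubgroup, resEF K M (incl hKE h) = 1 →
      x₂ (h * g) = actU (h : Qb ≃ₐ[ℚ] Qb) (x₂ g) := by
    intro g h hh
    have := hrel₂ h g
    rw [hker h hh, hh, hσ.dlog_one, zero_add, hdl, pow_zero, one_mul, mul_one] at this
    exact this.symm
  refine ⟨x₂ s, ?_, ?_⟩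
  · -- `x₂ s` is fixed by `G_{ME}`
    rw [← InfiniteGalois.fixedField_fixingSubgroup F₀, IntermediateField.mem_fixedField_iff]
    intro h hh
    have hh' : resEF K M (incl hKE ⟨h, IntermediateField.fixingSubgroup_le hEF hh⟩) = 1 :=
      (gbc_res_eq_one_iff M hKE _).2 hh
    set h₀ : E.fixingSubgroup := ⟨h, IntermediateField.fixingSubgroup_le hEF hh⟩ with hh₀
    have h1 := hleft s h₀ hh'
    have h2 : h₀ * s = s * (s⁻¹ * h₀ * s) := by group
    have h3 : resEF K M (incl hKE (s⁻¹ * h₀ * s)) = 1 := by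
      rw [map_mul, map_mul, map_mul, map_mul, hh', mul_one, map_inv, map_inv, inv_mul_cancel]
    rw [h2, hright s _ h3] at h1
    have := congrArg (fun u : Qbˣ => (u : Qb)) h1
    exact this.symm
  · -- telescoping
    have hdσ : ∀ k : ℕ, dlog σ (resEF K M (incl hKE (s ^ k))) = k % n := by
      intro k
      rw [map_pow, map_pow, hs]
      exact dlog_pow' hσ.1 k
    have hstep : ∀ k : ℕ, k + 1 < n →
        x₂ (s ^ k) = gbcP (s : Qb ≃ₐ[ℚ] Qb) (x₂ s) k →
        x₂ (s ^ (k + 1)) = gbcP (s : Qb ≃ₐ[ℚ] Qb) (x₂ s) (k + 1) := by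
      intro k hk ih
      have := hrel₂ (s ^ k) s
      rw [hdσ k] at this
      have h1 : dlog σ (resEF K M (incl hKE s)) = 1 := by
        have := hdσ 1
        rw [pow_one, Nat.mod_eq_of_lt (by omega)] at this
        exact this
      rw [h1, Nat.mod_eq_of_lt (by omega), Nat.div_eq_of_lt hk, pow_zero, one_mul, ih,
        ← pow_succ] at this
      rw [← this, gbcP_succ, mul_comm]
      rfl
    have hall : ∀ k : ℕ, k < n → x₂ (s ^ k) = gbcP (s : Qb ≃ₐ[ℚ] Qb) (x₂ s) k := by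
      intro k
      induction k with
      | zero =>
          intro _
          rw [pow_zero, gbcP_zero]
          exact hker 1 (by rw [map_one, map_one])
      | succ k ih =>
          intro hk
          exact hstep k hk (ih (by omega))
    have hlast := hrel₂ (s ^ (n - 1)) s
    have h1 : dlog σ (resEF K M (incl hKE s)) = 1 := by
      have := hdσ 1
      rw [pow_one, Nat.mod_eq_of_lt (by omega)] at this
      exact this
    have hsn : x₂ (s ^ (n - 1) * s) = 1 := by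
      apply hker
      rw [← pow_succ, map_pow, map_pow, hs, Nat.sub_add_cancel (by omega), pow_orderOf_eq_one]
    rw [hdσ, h1, Nat.mod_eq_of_lt (by omega), Nat.sub_add_cancel (by omega), Nat.div_self (by omega),
      pow_one, hsn, mul_one, hall (n - 1) (by omega)] at hlast
    rw [← hlast, mul_comm]
    have := gbcP_succ (s : Qb ≃ₐ[ℚ] Qb) (x₂ s) (n - 1)
    rw [Nat.sub_add_cancel (by omega)] at this
    rw [this]
    rfl

end lift

/-- **[HS-B2']** -/
theorem galBaseChangeSplit : GalBaseChangeSplitStatement := by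
  intro K M _ _ σ hσ a E hKE hME x
  obtain ⟨g, h⟩ := x
  have hone : ∀ g : E.fixingSubgroup, resEF K M (incl hKE g) = 1 := by
    intro g
    rw [gbc_res_eq_one_iff, sup_eq_right.2 hME]
    exact g.2
  rw [gbc_cochain_apply, hone, hone, hσ.dlog_one]
  simp

/-- **[HS-B2]** -/
theorem galBaseChange : GalBaseChangeStatement := by
  intro p _ K M _ _ hp σ hσ a E hKE hME
  have hn : orderOf σ = p := by rw [hσ.orderOf_eq_finrank, hp]
  have haQ : ((Units.map (algebraMap M Qb : M →* Qb) (unitsIncl K M a) : Qbˣ) : Qb) =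
      ((a : K) : Qb) := rfl
  constructor
  · intro hcob
    obtain ⟨s, hs⟩ := gbc_exists_lift M hKE p hp hME σ
    obtain ⟨y, hy, hN⟩ := gbc_norm_of_coboundary M hKE hσ
      (by rw [hn]; exact (Fact.out : p.Prime).two_le) _ s hs hcob
    refine ⟨s, y, hs, hy, ?_⟩
    rw [← haQ, hN, hn, gbcP_coe]
  · rintro ⟨s, y, hs, hy, hN⟩
    refine gbc_coboundary_of_norm M hKE hσ _ hs hy ?_
    apply Units.ext
    rw [haQ, hN, hn, gbcP_coe]

end

end Fermat.Agent.H2
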