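/-
P-CFT / [HASSE] row 945 HS-A (helper2, second seat): cochain core of the exactness of
inflation-restriction in degree 2 with EXPLICIT data (coset representatives `r`, trivialisations
`a₀` of the twisted 1-cocycles), so that the correcting 1-cochain `siA` is given by a formula and
its level can be controlled.  Variant of `Fermat.Agent.H75.Coh2.inf_core_exact` (helper75).
-/
import Fermat.Agent.H75.Coh2InfResCore

set_option autoImplicit false

namespace Fermat.Agent.H2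

open Fermat.Agent.H75.Coh2

section core

variable {k : Type*} {G : Type*} {V : Type*} [CommRing k] [Group G] [AddCommGroup V] [Module k V]
  (ρ : Representation k G V)

/-- `c - d b`. -/
def siC1 (c : G × G → V) (b : G → V) : G × G → V :=
  fun p => c p + (ρ p.1 ((-b) p.2) - (-b) (p.1 * p.2) + (-b) p.1)

/-- The uncorrected extension. -/
def siA1 (c : G × G → V) (b : G → V) (r : G → G) (a₀ : G → V) : G → V :=
  fun g => a₀ (r g) + siC1 ρ c b (r g, (r g)⁻¹ * g)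

/-- The correcting 1-cochain: `c + d (siA)` is inflated. -/
def siA (c : G × G → V) (b : G → V) (r : G → G) (a₀ : G → V) : G → V :=
  fun g => siA1 ρ c b r a₀ g - siA1 ρ c b r a₀ 1 - b g

theorem siC1_cocycle (c : G × G → V)
    (hc : ∀ g h j : G, c (g * h, j) + c (g, h) = ρ g (c (h, j)) + c (g, h * j)) (b : G → V)
    (g h j : G) :
    siC1 ρ c b (g * h, j) + siC1 ρ c b (g, h) =
      ρ g (siC1 ρ c b (h, j)) + siC1 ρ c b (g, h * j) :=
  cocycle_add_cobound ρ c hc (-b) g h j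

theorem siC1_vanish (S : Subgroup G) (c : G × G → V) (b : G → V)
    (hb : ∀ s ∈ S, ∀ t ∈ S, c (s, t) = ρ s (b t) - b (s * t) + b s) :
    ∀ s ∈ S, ∀ t ∈ S, siC1 ρ c b (s, t) = 0 := by
  intro s hs t ht
  simp only [siC1, hb s hs t ht, Pi.neg_apply, map_neg]
  abel

/-- Cochain-level core of exactness of inflation-restriction in degree 2, explicit form. -/
theorem si_core_exact (S : Subgroup G) [S.Normal]
    (c : G × G → V)
    (hc : ∀ g h j : G, c (g * h, j) + c (g, h) = ρ g (c (h, j)) + c (g, h * j))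
    (b : G → V) (hb : ∀ s ∈ S, ∀ t ∈ S, c (s, t) = ρ s (b t) - b (s * t) + b s)
    (r : G → G) (hr1 : ∀ g, (r g)⁻¹ * g ∈ S) (hr2 : ∀ g, ∀ s ∈ S, r (g * s) = r g)
    (a₀ : G → V)
    (ha₀ : ∀ g, ∀ m ∈ S, ρ m (a₀ g) - a₀ g =
      siC1 ρ c b (g, g⁻¹ * m * g) - siC1 ρ c b (m, g)) :
    ∃ c' : G × G → V,
      (∀ g h, c' (g, h) = c (g, h) +
        (ρ g (siA ρ c b r a₀ h) - siA ρ c b r a₀ (g * h) + siA ρ c b r a₀ g)) ∧
      (∀ g h j : G, c' (g * h, j) + c' (g, h) = ρ g (c' (h, j)) + c' (g, h * j)) ∧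
      (∀ g h, ∀ s ∈ S, c' (g * s, h) = c' (g, h)) ∧
      (∀ g h, ∀ s ∈ S, c' (g, h * s) = c' (g, h)) ∧
      (∀ g h, ∀ s ∈ S, ρ s (c' (g, h)) = c' (g, h)) := by
  classical
  set c₁ : G × G → V := siC1 ρ c b with hc₁def
  have hc₁ : ∀ g h j : G, c₁ (g * h, j) + c₁ (g, h) = ρ g (c₁ (h, j)) + c₁ (g, h * j) :=
    siC1_cocycle ρ c hc b
  have hc₁S : ∀ s ∈ S, ∀ t ∈ S, c₁ (s, t) = 0 := siC1_vanish ρ S c b hb
  have hr3 : ∀ g, r g * ((r g)⁻¹ * g) = g := fun g => by group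
  set a₁ : G → V := siA1 ρ c b r a₀ with ha₁def
  have ha₁ : ∀ g, a₁ g = a₀ (r g) + c₁ (r g, (r g)⁻¹ * g) := fun g => rfl
  have hi : ∀ g, ∀ n ∈ S, a₁ (g * n) = a₁ g + c₁ (g, n) := by
    intro g n hn
    have := step_i ρ S c₁ hc₁ hc₁S (r g) (a₀ (r g)) ((r g)⁻¹ * g) n (hr1 g) hn
    rw [hr3] at this
    rw [ha₁, ha₁, hr2 g n hn, ← mul_assoc]
    exact this
  have hii : ∀ g, ∀ m ∈ S, ρ m (a₁ g) - a₁ g = c₁ (g, g⁻¹ * m * g) - c₁ (m, g) := by
    intro g m hm
    have := step_ii ρ S c₁ hc₁ hc₁S (r g) (a₀ (r g)) (ha₀ (r g)) ((r g)⁻¹ * g) m (hr1 g) hm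
    rw [hr3] at this
    exact this
  have hκ : ∀ m ∈ S, ρ m (a₁ 1) = a₁ 1 := by
    intro m hm
    have := hii 1 m hm
    rw [hc₁S 1 S.one_mem _ (by simpa using hm), hc₁S m hm 1 S.one_mem, sub_zero,
      sub_eq_zero] at this
    exact this
  set a : G → V := fun g => a₁ g - a₁ 1 with hadef
  have haS : ∀ s ∈ S, a s = 0 := by
    intro s hs
    have := hi 1 s hs
    rw [one_mul, hc₁S 1 S.one_mem s hs, add_zero] at this
    simp only [a, this, sub_self]
  let c' : G × G → V := fun p => c₁ p + (ρ p.1 (a p.2) - a (p.1 * p.2) + a p.1)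
  have hc' : ∀ g h j : G, c' (g * h, j) + c' (g, h) = ρ g (c' (h, j)) + c' (g, h * j) :=
    fun g h j => cocycle_add_cobound ρ c₁ hc₁ a g h j
  have hv2 : ∀ g, ∀ s ∈ S, c' (g, s) = 0 := by
    intro g s hs
    simp only [c', haS s hs, map_zero, a, hi g s hs]
    abel
  have hv1 : ∀ g, ∀ s ∈ S, c' (s, g) = 0 := by
    intro g s hs
    have e : s * g = g * (g⁻¹ * s * g) := by group
    have h1 := hi g (g⁻¹ * s * g) (Subgroup.Normal.conj_mem' ‹_› s hs g)
    rw [← e] at h1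
    have h2 := hii g s hs
    simp only [c', haS s hs, a, h1, map_sub, hκ s hs]
    linear_combination (norm := abel) h2
  obtain ⟨i1, i2, i3⟩ := inflated_of_vanishing ρ S c' hc' hv1 hv2
  refine ⟨c', ?_, hc', i1, i2, i3⟩
  intro g h
  simp only [c', hc₁def, siC1, siA, hadef, ← ha₁def, Pi.neg_apply, map_neg, map_sub]
  abel

end core

end Fermat.Agent.H2
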