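/-
P-CFT / [HASSE] row 945 HS-A (helper2, second seat): `SplitInflStatement`.

A Brauer cocycle `c` of `G_K` whose restriction to `G_M` (`M / K` finite Galois) is the coboundary
of a level 1-cochain is cohomologous, through a level 1-cochain of `G_K`, to the inflation of a
2-cocycle of `Gal(M/K)` with values in `Mˣ`.

Direct cochain proof: the explicit core `si_core_exact` (coset representatives + trivialisations
of the twisted 1-cocycles, which are LEVEL 1-cocycles of `G_M`, hence coboundaries by helper57's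
Hilbert 90), then descent of the inflated cocycle to `Gal(M/K)` (Galois correspondence).
-/
import Fermat.Agent.H2.Hasse.SplitInflCore
import Fermat.Agent.H97.Hasse.Interfaces
import Fermat.Agent.H75.Inf2Lvl
import Fermat.Agent.H81.Local.Infl
import Fermat.Agent.H57.CFT.H90Lvl

set_option autoImplicit false
set_option linter.style.haveILetI false
set_option linter.unusedSectionVars false
set_option synthInstance.maxHeartbeats 400000

namespace Fermat.Agent.H2

open Fermat.Agent.H13.Cft Fermat.Agent.H78.CFT Fermat.Agent.H61.CFT groupCohomology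
open Fermat.Agent.H97.Hasse Fermat.Agent.H75.Coh2

noncomputable section

/-- A single element of `ℚ̄` is fixed by a level of `G_K`. -/
theorem si_level_fix (K : IntermediateField ℚ Qb) (y : Qb) :
    ∃ N ∈ (lvlE K).sets, ∀ n ∈ N, ((n : K.fixingSubgroup) : Qb ≃ₐ[ℚ] Qb) y = y := by
  haveI : Algebra.IsAlgebraic ℚ Qb := Fermat.Agent.H81.isAlgebraic_rat_Qbar
  haveI : FiniteDimensional ℚ (IntermediateField.adjoin ℚ ({y} : Set Qb)) :=
    IntermediateField.adjoin.finiteDimensional (Algebra.IsIntegral.isIntegral (R := ℚ) y)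
  obtain ⟨N, hN, hle⟩ := Fermat.Agent.H57.CFT.exists_lvlE_le K
    (IntermediateField.adjoin ℚ ({y} : Set Qb))
  refine ⟨N, hN, fun n hn => ?_⟩
  have := hle hn
  rw [Subgroup.mem_comap, IntermediateField.mem_fixingSubgroup_iff] at this
  exact this y (IntermediateField.mem_adjoin_simple_self ℚ y)

section descend

variable (K : IntermediateField ℚ Qb) (M : IntermediateField K Qb) [FiniteDimensional K M]
  [IsGalois K M]

/-- A cocycle of `G_K` which is inflated from `Gal(M/K)` (invariances (i1), (i2), (i3)) is the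
inflation of a finite-level cocycle. -/
theorem si_descend (c' : K.fixingSubgroup × K.fixingSubgroup → Qbˣ)
    (hcoc : IsMulCocycle₂E K c')
    (i1 : ∀ g h, ∀ s, resEF K M s = 1 → c' (g * s, h) = c' (g, h))
    (i2 : ∀ g h, ∀ s, resEF K M s = 1 → c' (g, h * s) = c' (g, h))
    (i3 : ∀ g h, ∀ s : K.fixingSubgroup, resEF K M s = 1 →
      actU (s : Qb ≃ₐ[ℚ] Qb) (c' (g, h)) = c' (g, h)) :
    ∃ c₁ : (M ≃ₐ[K] M) × (M ≃ₐ[K] M) → Mˣ, IsMulCocycle₂ c₁ ∧ inflE K M c₁ = c' := by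
  classical
  have hsurj := Fermat.Agent.H75.Inf2.resEF_surjective K M
  let lift : (M ≃ₐ[K] M) → K.fixingSubgroup := Function.surjInv hsurj
  have hlift : ∀ σ, resEF K M (lift σ) = σ := Function.surjInv_eq hsurj
  have hval : ∀ p : K.fixingSubgroup × K.fixingSubgroup, ((c' p : Qbˣ) : Qb) ∈ M := by
    intro p
    refine Fermat.Agent.H75.Inf2.mem_of_fixed K M _ (fun g hg => ?_)
    have := i3 p.1 p.2 g ((Fermat.Agent.H75.Inf2.resEF_eq_one_iff K M g).2 hg)
    exact congrArg (fun u : Qbˣ => (u : Qb)) this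
  let c₁ : (M ≃ₐ[K] M) × (M ≃ₐ[K] M) → Mˣ := fun p =>
    Fermat.Agent.H75.Inf2.unitOfMem M (c' (lift p.1, lift p.2)) (hval _)
  have hcongr : ∀ g g' h h' : K.fixingSubgroup, resEF K M g = resEF K M g' →
      resEF K M h = resEF K M h' → c' (g', h') = c' (g, h) := by
    intro g g' h h' hg hh
    have h1 : resEF K M (g⁻¹ * g') = 1 := by rw [map_mul, map_inv, hg, inv_mul_cancel]
    have h2 : resEF K M (h⁻¹ * h') = 1 := by rw [map_mul, map_inv, hh, inv_mul_cancel]
    have e1 := i1 g h' _ h1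
    have e2 := i2 g h _ h2
    rw [mul_inv_cancel_left] at e1 e2
    rw [e1, e2]
  have hinfl : ∀ g h : K.fixingSubgroup,
      Units.map (algebraMap M Qb : M →* Qb) (c₁ (resEF K M g, resEF K M h)) = c' (g, h) := by
    intro g h
    simp only [c₁, Fermat.Agent.H75.Inf2.map_unitOfMem]
    exact hcongr g _ h _ (hlift _).symm (hlift _).symm
  refine ⟨c₁, ?_, ?_⟩
  · intro σ τ υ
    have hinj : Function.Injective (Units.map (algebraMap M Qb : M →* Qb)) :=
      Units.map_injective (algebraMap M Qb).injective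
    apply hinj
    have e1 : resEF K M (lift σ * lift τ) = σ * τ := by rw [map_mul, hlift, hlift]
    have e2 : resEF K M (lift τ * lift υ) = τ * υ := by rw [map_mul, hlift, hlift]
    have a1 := hinfl (lift σ * lift τ) (lift υ)
    have a2 := hinfl (lift σ) (lift τ)
    have a3 := hinfl (lift τ) (lift υ)
    have a4 := hinfl (lift σ) (lift τ * lift υ)
    rw [e1, hlift] at a1
    rw [hlift, hlift] at a2 a3
    rw [hlift, e2] at a4
    have a5 : Units.map (algebraMap M Qb : M →* Qb) (σ • c₁ (τ, υ)) =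
        actU (lift σ : Qb ≃ₐ[ℚ] Qb) (c' (lift τ, lift υ)) := by
      rw [← a3]
      apply Units.ext
      show ((σ (c₁ (τ, υ) : M) : M) : Qb) = (lift σ : Qb ≃ₐ[ℚ] Qb) ((c₁ (τ, υ) : M) : Qb)
      rw [← Fermat.Agent.H75.Inf2.resEF_apply, hlift]
    rw [map_mul, map_mul, a1, a2, a5, a4]
    exact hcoc (lift σ) (lift τ) (lift υ)
  · funext ⟨g, h⟩
    exact hinfl g h

end descend

set_option maxHeartbeats 2000000 in
/-- **[HS-A]** inflation-restriction in degree 2, level form. -/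
theorem splitInfl : SplitInflStatement := by
  intro K M _ _ c hc hsplit
  classical
  obtain ⟨⟨Nc, hNc, hcN⟩, hcoc⟩ := hc
  have hKL : K ≤ M.restrictScalars ℚ := le_restrictScalars M
  have hsplit' : IsLvlMulCoboundary₂E (M.restrictScalars ℚ) (resCochain₂ hKL c) := hsplit
  clear hsplit
  generalize hL : M.restrictScalars ℚ = L at hKL hsplit'
  obtain ⟨b, ⟨Nb, hNb, hbN⟩, hb⟩ := hsplit'
  set ρ : Representation ℤ K.fixingSubgroup (Additive Qbˣ) := Fermat.Agent.H75.Inf2.repU K with hρ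
  have hρa : ∀ (g : K.fixingSubgroup) (u : Additive Qbˣ),
      ρ g u = Additive.ofMul (actU (g : Qb ≃ₐ[ℚ] Qb) (Additive.toMul u)) := fun g u => rfl
  set S : Subgroup K.fixingSubgroup := (resEF K M).ker with hS
  have hSmem : ∀ s, s ∈ S ↔ resEF K M s = 1 := fun s => MonoidHom.mem_ker
  have hmemL : ∀ s : K.fixingSubgroup, resEF K M s = 1 →
      (s : Qb ≃ₐ[ℚ] Qb) ∈ L.fixingSubgroup := by
    intro s hs
    rw [← hL]
    exact Fermat.Agent.H75.Inf2.mem_fixingSubgroup_of_resEF K M s hs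
  have hιS : ∀ n : L.fixingSubgroup, resEF K M (incl hKL n) = 1 := by
    subst hL
    exact fun n => Fermat.Agent.H75.Inf2.resEF_inclusion K M n
  -- the common level
  obtain ⟨hNbn, hNbf, Fb, hFb, hFbN⟩ := hNb
  haveI := hFb
  obtain ⟨N₂, hN₂, hN₂le⟩ := Fermat.Agent.H57.CFT.exists_lvlE_le K Fb
  obtain ⟨N₃, hN₃, hN₃le⟩ := (lvlE K).directed Nc hNc _
    (Fermat.Agent.H81.Local.ker_resEF_mem_lvlE K M)
  obtain ⟨N₀, hN₀, hN₀le⟩ := (lvlE K).directed N₃ hN₃ N₂ hN₂
  haveI hN₀n : N₀.Normal := (lvlE K).normal N₀ hN₀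
  have h0c : ∀ n ∈ N₀, n ∈ Nc := fun n hn => (hN₃le (hN₀le hn).1).1
  have h0k : ∀ n ∈ N₀, resEF K M n = 1 :=
    fun n hn => MonoidHom.mem_ker.1 (hN₃le (hN₀le hn).1).2
  have h0b : ∀ n ∈ N₀, ∀ h : (n : Qb ≃ₐ[ℚ] Qb) ∈ L.fixingSubgroup,
      (⟨(n : Qb ≃ₐ[ℚ] Qb), h⟩ : L.fixingSubgroup) ∈ Nb := by
    intro n hn h
    apply hFbN
    rw [Subgroup.mem_comap]
    have := hN₂le (hN₀le hn).2
    rw [Subgroup.mem_comap] at this
    exact this
  -- the additive cocycle
  set ca : K.fixingSubgroup × K.fixingSubgroup → Additive Qbˣ :=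
    fun p => Additive.ofMul (c p) with hca
  have hcacoc : ∀ g h j : K.fixingSubgroup,
      ca (g * h, j) + ca (g, h) = ρ g (ca (h, j)) + ca (g, h * j) :=
    fun g h j => congrArg Additive.ofMul (hcoc g h j)
  have hcaN2 : ∀ g h, ∀ m ∈ N₀, ca (g, h * m) = ca (g, h) := by
    intro g h m hm
    have := hcN g h 1 Nc.one_mem m (h0c m hm)
    rw [mul_one] at this
    exact congrArg Additive.ofMul this
  have hcaN1 : ∀ g h, ∀ m ∈ N₀, ca (g * m, h) = ca (g, h) := by
    intro g h m hm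
    have := hcN g h m (h0c m hm) 1 Nc.one_mem
    rw [mul_one] at this
    exact congrArg Additive.ofMul this
  -- the extension of `b` by zero
  set b₀ : K.fixingSubgroup → Additive Qbˣ := fun g =>
    if h : resEF K M g = 1 then Additive.ofMul (b ⟨(g : Qb ≃ₐ[ℚ] Qb), hmemL g h⟩) else 0
    with hb₀def
  have hb₀ : ∀ (g : K.fixingSubgroup) (h : resEF K M g = 1),
      b₀ g = Additive.ofMul (b ⟨(g : Qb ≃ₐ[ℚ] Qb), hmemL g h⟩) := fun g h => dif_pos h
  have hb₀N : ∀ g, ∀ n ∈ N₀, b₀ (g * n) = b₀ g := by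
    intro g n hn
    by_cases h : resEF K M g = 1
    · have h' : resEF K M (g * n) = 1 := by rw [map_mul, h, h0k n hn, one_mul]
      rw [hb₀ g h, hb₀ (g * n) h']
      congr 1
      exact hbN ⟨(g : Qb ≃ₐ[ℚ] Qb), hmemL g h⟩ ⟨(n : Qb ≃ₐ[ℚ] Qb), hmemL n (h0k n hn)⟩
        (h0b n hn _)
    · have h' : ¬ resEF K M (g * n) = 1 := by
        rw [map_mul, h0k n hn, mul_one]
        exact h
      simp only [hb₀def, dif_neg h, dif_neg h']
  have hbS : ∀ s ∈ S, ∀ t ∈ S, ca (s, t) = ρ s (b₀ t) - b₀ (s * t) + b₀ s := by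
    intro s hs t ht
    have hs' := (hSmem s).1 hs
    have ht' := (hSmem t).1 ht
    have hst : resEF K M (s * t) = 1 := by rw [map_mul, hs', ht', one_mul]
    rw [hb₀ s hs', hb₀ t ht', hb₀ (s * t) hst]
    have := hb (⟨(s : Qb ≃ₐ[ℚ] Qb), hmemL s hs'⟩, ⟨(t : Qb ≃ₐ[ℚ] Qb), hmemL t ht'⟩)
    have h2 : resCochain₂ hKL c
        (⟨(s : Qb ≃ₐ[ℚ] Qb), hmemL s hs'⟩, ⟨(t : Qb ≃ₐ[ℚ] Qb), hmemL t ht'⟩) = c (s, t) := rfl
    rw [h2] at this
    rw [hca]
    show Additive.ofMul (c (s, t)) = _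
    rw [← this, hρa]
    simp only [mulD₁E, toMul_ofMul, ofMul_div, ofMul_mul]
    have e : (⟨(s : Qb ≃ₐ[ℚ] Qb), hmemL s hs'⟩ : L.fixingSubgroup) *
        ⟨(t : Qb ≃ₐ[ℚ] Qb), hmemL t ht'⟩ = ⟨((s * t : K.fixingSubgroup) : Qb ≃ₐ[ℚ] Qb),
          hmemL (s * t) hst⟩ := rfl
    rw [e]
    abel
  -- `c₁ = c - d b₀`
  set c₁ : K.fixingSubgroup × K.fixingSubgroup → Additive Qbˣ := siC1 ρ ca b₀ with hc₁def
  have hc₁ : ∀ g h j : K.fixingSubgroup,
      c₁ (g * h, j) + c₁ (g, h) = ρ g (c₁ (h, j)) + c₁ (g, h * j) :=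
    siC1_cocycle ρ ca hcacoc b₀
  have hc₁S : ∀ s ∈ S, ∀ t ∈ S, c₁ (s, t) = 0 := siC1_vanish ρ S ca b₀ hbS
  have hc₁N2 : ∀ g h, ∀ m ∈ N₀, c₁ (g, h * m) = c₁ (g, h) := by
    intro g h m hm
    simp only [hc₁def, siC1, Pi.neg_apply]
    rw [hcaN2 g h m hm, hb₀N h m hm, ← mul_assoc, hb₀N (g * h) m hm]
  -- the trivialisations of the twisted cocycles
  have hex : ∀ g : K.fixingSubgroup, ∃ z : Additive Qbˣ, ∀ m ∈ S,
      ρ m z - z = c₁ (g, g⁻¹ * m * g) - c₁ (m, g) := by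
    intro g
    set f : K.fixingSubgroup → Additive Qbˣ := fun m => c₁ (g, g⁻¹ * m * g) - c₁ (m, g)
      with hf
    have hxcoc : IsMulCocycle₁E L (fun n => Additive.toMul (f (incl hKL n))) := by
      intro n n'
      have := twisted_cocycle ρ S c₁ hc₁ hc₁S g (incl hKL n) (incl hKL n')
        ((hSmem _).2 (hιS n)) ((hSmem _).2 (hιS n'))
      show Additive.toMul (f (incl hKL (n * n'))) =
        actU (n : Qb ≃ₐ[ℚ] Qb) (Additive.toMul (f (incl hKL n'))) *
          Additive.toMul (f (incl hKL n))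
      rw [map_mul]
      have h2 : f (incl hKL n * incl hKL n') =
          ρ (incl hKL n) (f (incl hKL n')) + f (incl hKL n) := this
      rw [h2, hρa]
      rfl
    have hxlvl : IsLvlFun₁ (lvlE L) (fun n => Additive.toMul (f (incl hKL n))) := by
      obtain ⟨Ng, hNg, hNgfix⟩ := si_level_fix K ((Additive.toMul (b₀ g) : Qbˣ) : Qb)
      obtain ⟨N', hN', hN'le⟩ := (lvlE K).directed N₀ hN₀ Ng hNg
      refine ⟨N'.comap (incl hKL), comap_incl_mem_lvl hKL hN', fun n n₀ hn₀ => ?_⟩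
      have hn₀' : incl hKL n₀ ∈ N' := Subgroup.mem_comap.1 hn₀
      have h1 : incl hKL n₀ ∈ N₀ := (hN'le hn₀').1
      have h2 : ρ (incl hKL n₀) (b₀ g) = b₀ g := by
        rw [hρa]
        have := hNgfix _ (hN'le hn₀').2
        have h3 : actU ((incl hKL n₀ : K.fixingSubgroup) : Qb ≃ₐ[ℚ] Qb)
            (Additive.toMul (b₀ g)) = Additive.toMul (b₀ g) := Units.ext this
        rw [h3]
        rfl
      show Additive.toMul (f (incl hKL (n * n₀))) = Additive.toMul (f (incl hKL n))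
      congr 1
      show c₁ (g, g⁻¹ * incl hKL (n * n₀) * g) - c₁ (incl hKL (n * n₀), g) =
        c₁ (g, g⁻¹ * incl hKL n * g) - c₁ (incl hKL n, g)
      rw [map_mul]
      have e1 : g⁻¹ * (incl hKL n * incl hKL n₀) * g =
          (g⁻¹ * incl hKL n * g) * (g⁻¹ * incl hKL n₀ * g) := by group
      rw [e1, hc₁N2 _ _ _ (hN₀n.conj_mem' _ h1 g)]
      congr 1
      simp only [hc₁def, siC1, Pi.neg_apply]
      have e2 : incl hKL n * incl hKL n₀ * g =
          (incl hKL n * g) * (g⁻¹ * incl hKL n₀ * g) := by group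
      rw [hcaN1 _ _ _ h1, hb₀N _ _ h1, e2, hb₀N _ _ (hN₀n.conj_mem' _ h1 g), map_mul,
        Module.End.mul_apply, map_neg, map_neg, map_neg, h2]
    obtain ⟨z, hz⟩ := Fermat.Agent.H57.CFT.h90Lvl L _ hxlvl hxcoc
    refine ⟨Additive.ofMul z, fun m hm => ?_⟩
    have := hz ⟨(m : Qb ≃ₐ[ℚ] Qb), hmemL m ((hSmem m).1 hm)⟩
    have e : incl hKL ⟨(m : Qb ≃ₐ[ℚ] Qb), hmemL m ((hSmem m).1 hm)⟩ = m := Subtype.ext rfl
    simp only [e] at this
    have h2 := congrArg Additive.ofMul this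
    rw [ofMul_toMul] at h2
    show ρ m (Additive.ofMul z) - Additive.ofMul z = f m
    rw [h2, hρa]
    rfl
  choose a₀ ha₀ using hex
  -- coset representatives
  have hsurj := Fermat.Agent.H75.Inf2.resEF_surjective K M
  set t : (M ≃ₐ[K] M) → K.fixingSubgroup := Function.surjInv hsurj with ht
  have htr : ∀ σ, resEF K M (t σ) = σ := Function.surjInv_eq hsurj
  set r : K.fixingSubgroup → K.fixingSubgroup := fun g => t (resEF K M g) with hr
  have hr1 : ∀ g, (r g)⁻¹ * g ∈ S := by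
    intro g
    rw [hSmem, map_mul, map_inv, htr, inv_mul_cancel]
  have hr2 : ∀ g, ∀ s ∈ S, r (g * s) = r g := by
    intro g s hs
    show t (resEF K M (g * s)) = t (resEF K M g)
    rw [map_mul, (hSmem s).1 hs, mul_one]
  -- the core
  obtain ⟨c', hc'f, hc'coc, i1, i2, i3⟩ := si_core_exact ρ S ca hcacoc b₀ hbS r hr1 hr2 a₀ ha₀
  have hAlvl : ∀ g, ∀ n ∈ N₀, siA ρ ca b₀ r a₀ (g * n) = siA ρ ca b₀ r a₀ g := by
    intro g n hn
    have hrn : r (g * n) = r g := hr2 g n ((hSmem n).2 (h0k n hn))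
    simp only [siA, siA1, hrn, hb₀N g n hn]
    rw [← mul_assoc, ← hc₁def, hc₁N2 _ _ n hn]
  -- descent
  obtain ⟨c_fin, hfin_coc, hfin_infl⟩ := si_descend K M (fun p => Additive.toMul (c' p))
    (fun g h j => congrArg Additive.toMul (hc'coc g h j))
    (fun g h s hs => congrArg Additive.toMul (i1 g h s ((hSmem s).2 hs)))
    (fun g h s hs => congrArg Additive.toMul (i2 g h s ((hSmem s).2 hs)))
    (fun g h s hs => congrArg Additive.toMul (i3 g h s ((hSmem s).2 hs)))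
  refine ⟨c_fin, hfin_coc, ?_⟩
  show IsLvlMulCoboundary₂E K (fun x => c x / inflE K M c_fin x)
  refine ⟨fun g => (Additive.toMul (siA ρ ca b₀ r a₀ g))⁻¹,
    ⟨N₀, hN₀, fun g n hn => ?_⟩, ?_⟩
  · show (Additive.toMul (siA ρ ca b₀ r a₀ (g * n)))⁻¹ = (Additive.toMul (siA ρ ca b₀ r a₀ g))⁻¹
    rw [hAlvl g n hn]
  · rintro ⟨g, h⟩
    rw [hfin_infl]
    show mulD₁E K _ (g, h) = c (g, h) / Additive.toMul (c' (g, h))
    rw [hc'f, hρa]
    simp only [mulD₁E, hca, toMul_add, toMul_sub, toMul_ofMul, map_inv]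
    generalize actU (g : Qb ≃ₐ[ℚ] Qb) (Additive.toMul (siA ρ ca b₀ r a₀ h)) = A
    generalize Additive.toMul (siA ρ ca b₀ r a₀ (g * h)) = B
    generalize Additive.toMul (siA ρ ca b₀ r a₀ g) = C
    generalize c (g, h) = D
    have hab : ∀ (a b c d : Additive Qbˣ), -a + -c - -b = d - (d + (a - b + c)) := by
      intros; abel
    exact hab (Additive.ofMul A) (Additive.ofMul B) (Additive.ofMul C) (Additive.ofMul D)

end

end Fermat.Agent.H2
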