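/-
P-CFT / [HASSE] row 953 HS-F (helper2, second seat): cochain core of the TRANSFER argument with
explicit cochains.  `H ≤ G` of finite index `m`, `c` a 2-cocycle of `G` whose restriction to `H`
is the coboundary of `b`.  Then `m • c = d (ltE)` for the explicit 1-cochain `ltE`.
-/
import Fermat.Agent.H2.Hasse.SplitInflCore

set_option autoImplicit false

namespace Fermat.Agent.H2

open Fermat.Agent.H75.Coh2

section core

variable {k : Type*} {G : Type*} {V : Type*} [CommRing k] [Group G] [AddCommGroup V] [Module k V]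
  (ρ : Representation k G V)

/-- Coset representatives of `G ⧸ H`. -/
noncomputable def ltR (H : Subgroup G) : G → G := fun g => (QuotientGroup.mk g : G ⧸ H).out

theorem ltR_mem (H : Subgroup G) (g : G) : (ltR H g)⁻¹ * g ∈ H := by
  have h := QuotientGroup.out_eq' (QuotientGroup.mk g : G ⧸ H)
  rwa [QuotientGroup.eq] at h

theorem ltR_mul (H : Subgroup G) (g : G) {s : G} (hs : s ∈ H) : ltR H (g * s) = ltR H g := by
  have : (QuotientGroup.mk (g * s) : G ⧸ H) = QuotientGroup.mk g := by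
    rw [QuotientGroup.eq]; simpa using H.inv_mem hs
  simp only [ltR, this]

/-- The normalising 1-cochain. -/
noncomputable def ltA (H : Subgroup G) (c : G × G → V) (b : G → V) : G → V :=
  siA ρ c b (ltR H) 0

/-- The normalised cocycle `c + d (ltA)`. -/
noncomputable def ltC (H : Subgroup G) (c : G × G → V) (b : G → V) : G × G → V :=
  fun p => c p + (ρ p.1 (ltA ρ H c b p.2) - ltA ρ H c b (p.1 * p.2) + ltA ρ H c b p.1)

/-- The averaged 1-cochain. -/
noncomputable def ltY (H : Subgroup G) [Fintype (G ⧸ H)] (c : G × G → V) (b : G → V) : G → V :=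
  fun g => ∑ q : G ⧸ H, ltC ρ H c b (g, q.out)

/-- The transfer 1-cochain: `m • c = d (ltE)`. -/
noncomputable def ltE (H : Subgroup G) [Fintype (G ⧸ H)] (c : G × G → V) (b : G → V) : G → V :=
  fun g => ltY ρ H c b g - Fintype.card (G ⧸ H) • ltA ρ H c b g

theorem ltC_cocycle (H : Subgroup G) (c : G × G → V)
    (hc : ∀ g h j : G, c (g * h, j) + c (g, h) = ρ g (c (h, j)) + c (g, h * j)) (b : G → V)
    (g h j : G) :
    ltC ρ H c b (g * h, j) + ltC ρ H c b (g, h) =
      ρ g (ltC ρ H c b (h, j)) + ltC ρ H c b (g, h * j) :=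
  cocycle_add_cobound ρ c hc (ltA ρ H c b) g h j

/-- The normalised cocycle vanishes on `G × H`. -/
theorem ltC_vanish (H : Subgroup G) (c : G × G → V)
    (hc : ∀ g h j : G, c (g * h, j) + c (g, h) = ρ g (c (h, j)) + c (g, h * j))
    (b : G → V) (hb : ∀ s ∈ H, ∀ t ∈ H, c (s, t) = ρ s (b t) - b (s * t) + b s)
    (g : G) {s : G} (hs : s ∈ H) : ltC ρ H c b (g, s) = 0 := by
  set c₁ : G × G → V := siC1 ρ c b with hc₁def
  have hc₁ : ∀ g h j : G, c₁ (g * h, j) + c₁ (g, h) = ρ g (c₁ (h, j)) + c₁ (g, h * j) :=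
    siC1_cocycle ρ c hc b
  have hc₁S : ∀ s ∈ H, ∀ t ∈ H, c₁ (s, t) = 0 := siC1_vanish ρ H c b hb
  have hr3 : ∀ g, ltR H g * ((ltR H g)⁻¹ * g) = g := fun g => by group
  set a₁ : G → V := siA1 ρ c b (ltR H) 0 with ha₁def
  have ha₁ : ∀ g, a₁ g = 0 + c₁ (ltR H g, (ltR H g)⁻¹ * g) := fun g => rfl
  have hi : ∀ g, ∀ n ∈ H, a₁ (g * n) = a₁ g + c₁ (g, n) := by
    intro g n hn
    have := step_i ρ H c₁ hc₁ hc₁S (ltR H g) 0 ((ltR H g)⁻¹ * g) n (ltR_mem H g) hn
    rw [hr3] at this
    rw [ha₁, ha₁, ltR_mul H g hn, ← mul_assoc]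
    exact this
  have h1 := hi 1 s hs
  rw [one_mul, hc₁S 1 H.one_mem s hs, add_zero] at h1
  have h2 := hi g s hs
  simp only [ltC, ltA, siA, ← ha₁def, h1, h2, hc₁def, siC1, Pi.neg_apply, map_neg, map_sub,
    sub_self, map_zero]
  abel

/-- The normalised cocycle is right-invariant under `H` in the second variable. -/
theorem ltC_right (H : Subgroup G) (c : G × G → V)
    (hc : ∀ g h j : G, c (g * h, j) + c (g, h) = ρ g (c (h, j)) + c (g, h * j))
    (b : G → V) (hb : ∀ s ∈ H, ∀ t ∈ H, c (s, t) = ρ s (b t) - b (s * t) + b s)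
    (g k : G) {s : G} (hs : s ∈ H) : ltC ρ H c b (g, k * s) = ltC ρ H c b (g, k) := by
  have := ltC_cocycle ρ H c hc b g k s
  rw [ltC_vanish ρ H c hc b hb (g * k) hs, ltC_vanish ρ H c hc b hb k hs, map_zero, zero_add,
    zero_add] at this
  exact this.symm

/-- **Transfer**, cochain form: `[G : H] • c = d (ltE)`. -/
theorem lt_core (H : Subgroup G) [Fintype (G ⧸ H)] (c : G × G → V)
    (hc : ∀ g h j : G, c (g * h, j) + c (g, h) = ρ g (c (h, j)) + c (g, h * j))
    (b : G → V) (hb : ∀ s ∈ H, ∀ t ∈ H, c (s, t) = ρ s (b t) - b (s * t) + b s) (g h : G) :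
    Fintype.card (G ⧸ H) • c (g, h) =
      ρ g (ltE ρ H c b h) - ltE ρ H c b (g * h) + ltE ρ H c b g := by
  classical
  -- the averaged relation for the normalised cocycle
  have hsum : ∑ q : G ⧸ H, ltC ρ H c b (g, h * q.out) = ltY ρ H c b g := by
    have h1 : ∀ q : G ⧸ H, ltC ρ H c b (g, h * q.out) = ltC ρ H c b (g, (h • q).out) := by
      intro q
      have hq : (h • q) = QuotientGroup.mk (h * q.out) := by
        conv_lhs => rw [← QuotientGroup.out_eq' q]
        rfl
      have hmem : (h * q.out)⁻¹ * (h • q).out ∈ H := by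
        rw [← QuotientGroup.eq, ← hq]
        exact (QuotientGroup.out_eq' _).symm
      have := ltC_right ρ H c hc b hb g (h * q.out) hmem
      rw [mul_inv_cancel_left] at this
      exact this.symm
    rw [Finset.sum_congr rfl (fun q _ => h1 q)]
    exact Equiv.sum_comp (MulAction.toPerm h : Equiv.Perm (G ⧸ H))
      (fun q => ltC ρ H c b (g, q.out))
  have hY : Fintype.card (G ⧸ H) • ltC ρ H c b (g, h) =
      ρ g (ltY ρ H c b h) - ltY ρ H c b (g * h) + ltY ρ H c b g := by
    have h2 : ∑ q : G ⧸ H, (ltC ρ H c b (g * h, q.out) + ltC ρ H c b (g, h)) =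
        ∑ q : G ⧸ H, (ρ g (ltC ρ H c b (h, q.out)) + ltC ρ H c b (g, h * q.out)) :=
      Finset.sum_congr rfl (fun q _ => ltC_cocycle ρ H c hc b g h q.out)
    rw [Finset.sum_add_distrib, Finset.sum_add_distrib, Finset.sum_const, Finset.card_univ,
      hsum, ← map_sum] at h2
    simp only [ltY] at h2 ⊢
    linear_combination (norm := abel) h2
  simp only [ltE, map_sub, map_nsmul]
  have h3 : Fintype.card (G ⧸ H) • ltC ρ H c b (g, h) =
      Fintype.card (G ⧸ H) • c (g, h) + (Fintype.card (G ⧸ H) • ρ g (ltA ρ H c b h) -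
        Fintype.card (G ⧸ H) • ltA ρ H c b (g * h) + Fintype.card (G ⧸ H) • ltA ρ H c b g) := by
    simp only [ltC, smul_add, smul_sub]
  rw [h3] at hY
  linear_combination (norm := abel) hY

end core

end Fermat.Agent.H2
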