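/-
P-CFT / [HASSE] row 953 HS-F (helper2, second seat): LEVEL TRANSFER in the `E`-language.

`K ≤ K'` with `K'` finite over `ℚ`, `c` a Brauer cocycle of `G_K` whose restriction to `G_{K'}`
is a level coboundary.  Then `c ^ [G_K : G_{K'}]` is a level coboundary on `G_K`
(`levelTransfer`); with a second exponent prime to the index, `c` itself is a level coboundary
(`levelTransfer_coprime`).  No finite level: the explicit transfer cochain `ltE` of
`LevelTransferCore` is right-invariant under a level.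
-/
import Fermat.Agent.H2.Hasse.LevelTransferCore
import Fermat.Agent.H2.Hasse.SplitInfl

set_option autoImplicit false
set_option linter.style.haveILetI false
set_option linter.unusedSectionVars false
set_option synthInstance.maxHeartbeats 400000

namespace Fermat.Agent.H2

open Fermat.Agent.H13.Cft Fermat.Agent.H78.CFT Fermat.Agent.H61.CFT groupCohomology
open Fermat.Agent.H97.Hasse Fermat.Agent.H75.Coh2

noncomputable section

/-- A finite family of elements of `ℚ̄` is fixed by a level of `G_K`. -/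
theorem lt_level_fix (K : IntermediateField ℚ Qb) {ι : Type*} [Finite ι] (y : ι → Qb) :
    ∃ N ∈ (lvlE K).sets, ∀ n ∈ N, ∀ i, ((n : K.fixingSubgroup) : Qb ≃ₐ[ℚ] Qb) (y i) = y i := by
  haveI : Algebra.IsAlgebraic ℚ Qb := Fermat.Agent.H81.isAlgebraic_rat_Qbar
  have hS : (Set.range y).Finite := Set.finite_range y
  haveI := hS.to_subtype
  haveI : FiniteDimensional ℚ (IntermediateField.adjoin ℚ (Set.range y)) :=
    IntermediateField.finiteDimensional_adjoin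
      (fun x _ => (Algebra.IsIntegral.isIntegral (R := ℚ) x))
  obtain ⟨N, hN, hle⟩ := Fermat.Agent.H57.CFT.exists_lvlE_le K
    (IntermediateField.adjoin ℚ (Set.range y))
  refine ⟨N, hN, fun n hn i => ?_⟩
  have := hle hn
  rw [Subgroup.mem_comap, IntermediateField.mem_fixingSubgroup_iff] at this
  exact this (y i) (IntermediateField.subset_adjoin ℚ _ ⟨i, rfl⟩)

set_option maxHeartbeats 2000000 in
/-- **Level transfer**: `res_{K'} c` a level coboundary ⟹ `c ^ [G_K : G_{K'}]` a level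
coboundary. -/
theorem levelTransfer (K K' : IntermediateField ℚ Qb) (h : K ≤ K') [FiniteDimensional ℚ K']
    (c : K.fixingSubgroup × K.fixingSubgroup → Qbˣ) (hc : IsBrCocycle K c)
    (hres : IsLvlMulCoboundary₂E K' (resCochain₂ h c)) :
    IsLvlMulCoboundary₂E K
      (fun x => c x ^ (K'.fixingSubgroup.subgroupOf K.fixingSubgroup).index) := by
  classical
  obtain ⟨⟨Nc, hNc, hcN⟩, hcoc⟩ := hc
  obtain ⟨b, ⟨Nb, hNb, hbN⟩, hb⟩ := hres
  set ρ : Representation ℤ K.fixingSubgroup (Additive Qbˣ) := Fermat.Agent.H75.Inf2.repU K with hρ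
  have hρa : ∀ (g : K.fixingSubgroup) (u : Additive Qbˣ),
      ρ g u = Additive.ofMul (actU (g : Qb ≃ₐ[ℚ] Qb) (Additive.toMul u)) := fun g u => rfl
  set H : Subgroup K.fixingSubgroup := K'.fixingSubgroup.subgroupOf K.fixingSubgroup with hH
  have hHmem : ∀ s : K.fixingSubgroup, s ∈ H ↔ (s : Qb ≃ₐ[ℚ] Qb) ∈ K'.fixingSubgroup :=
    fun s => Subgroup.mem_subgroupOf
  haveI : K'.fixingSubgroup.FiniteIndex := Fermat.Agent.H57.CFT.finiteIndex_fixingSubgroup_qb K'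
  haveI hHfi : H.FiniteIndex := inferInstance
  letI : Fintype (K.fixingSubgroup ⧸ H) := Subgroup.fintypeQuotientOfFiniteIndex
  have hcard : Fintype.card (K.fixingSubgroup ⧸ H) = H.index := by
    rw [Subgroup.index_eq_card, Nat.card_eq_fintype_card]
  -- the common level
  obtain ⟨hNbn, hNbf, Fb, hFb, hFbN⟩ := hNb
  haveI := hFb
  obtain ⟨N₂, hN₂, hN₂le⟩ := Fermat.Agent.H57.CFT.exists_lvlE_le K Fb
  obtain ⟨N₄, hN₄, hN₄le⟩ := Fermat.Agent.H57.CFT.exists_lvlE_le K K'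
  obtain ⟨N₃, hN₃, hN₃le⟩ := (lvlE K).directed Nc hNc N₄ hN₄
  obtain ⟨N₀, hN₀, hN₀le⟩ := (lvlE K).directed N₃ hN₃ N₂ hN₂
  haveI hN₀n : N₀.Normal := (lvlE K).normal N₀ hN₀
  have h0c : ∀ n ∈ N₀, n ∈ Nc := fun n hn => (hN₃le (hN₀le hn).1).1
  have h0k : ∀ n ∈ N₀, n ∈ H := by
    intro n hn
    rw [hHmem]
    have := hN₄le (hN₃le (hN₀le hn).1).2
    rwa [Subgroup.mem_comap] at this
  have h0b : ∀ n ∈ N₀, ∀ h : (n : Qb ≃ₐ[ℚ] Qb) ∈ K'.fixingSubgroup,
      (⟨(n : Qb ≃ₐ[ℚ] Qb), h⟩ : K'.fixingSubgroup) ∈ Nb := by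
    intro n hn h
    apply hFbN
    rw [Subgroup.mem_comap]
    have := hN₂le (hN₀le hn).2
    rw [Subgroup.mem_comap] at this
    exact this
  -- the additive cocycle
  set ca : K.fixingSubgroup × K.fixingSubgroup → Additive Qbˣ :=
    fun p => Additive.ofMul (c p) with hca
  have hcacoc : ∀ g h j : K.fixingSubgroup,
      ca (g * h, j) + ca (g, h) = ρ g (ca (h, j)) + ca (g, h * j) :=
    fun g h j => congrArg Additive.ofMul (hcoc g h j)
  have hcaN2 : ∀ g h, ∀ m ∈ N₀, ca (g, h * m) = ca (g, h) := by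
    intro g h m hm
    have := hcN g h 1 Nc.one_mem m (h0c m hm)
    rw [mul_one] at this
    exact congrArg Additive.ofMul this
  have hcaN1 : ∀ g h, ∀ m ∈ N₀, ca (g * m, h) = ca (g, h) := by
    intro g h m hm
    have := hcN g h m (h0c m hm) 1 Nc.one_mem
    rw [mul_one] at this
    exact congrArg Additive.ofMul this
  -- the extension of `b` by zero
  set b₀ : K.fixingSubgroup → Additive Qbˣ := fun g =>
    if h : (g : Qb ≃ₐ[ℚ] Qb) ∈ K'.fixingSubgroup then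
      Additive.ofMul (b ⟨(g : Qb ≃ₐ[ℚ] Qb), h⟩) else 0
    with hb₀def
  have hb₀ : ∀ (g : K.fixingSubgroup) (h : (g : Qb ≃ₐ[ℚ] Qb) ∈ K'.fixingSubgroup),
      b₀ g = Additive.ofMul (b ⟨(g : Qb ≃ₐ[ℚ] Qb), h⟩) := fun g h => dif_pos h
  have hb₀N : ∀ g, ∀ n ∈ N₀, b₀ (g * n) = b₀ g := by
    intro g n hn
    have hn' : (n : Qb ≃ₐ[ℚ] Qb) ∈ K'.fixingSubgroup := (hHmem n).1 (h0k n hn)
    by_cases hg : (g : Qb ≃ₐ[ℚ] Qb) ∈ K'.fixingSubgroup
    · have h' : ((g * n : K.fixingSubgroup) : Qb ≃ₐ[ℚ] Qb) ∈ K'.fixingSubgroup :=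
        K'.fixingSubgroup.mul_mem hg hn'
      rw [hb₀ g hg, hb₀ (g * n) h']
      congr 1
      exact hbN ⟨(g : Qb ≃ₐ[ℚ] Qb), hg⟩ ⟨(n : Qb ≃ₐ[ℚ] Qb), hn'⟩ (h0b n hn _)
    · have h' : ¬ ((g * n : K.fixingSubgroup) : Qb ≃ₐ[ℚ] Qb) ∈ K'.fixingSubgroup := by
        intro h2
        apply hg
        have := K'.fixingSubgroup.mul_mem h2 (K'.fixingSubgroup.inv_mem hn')
        simpa using this
      simp only [hb₀def, dif_neg hg, dif_neg h']
  have hbS : ∀ s ∈ H, ∀ t ∈ H, ca (s, t) = ρ s (b₀ t) - b₀ (s * t) + b₀ s := by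
    intro s hs t ht
    have hs' := (hHmem s).1 hs
    have ht' := (hHmem t).1 ht
    have hst : ((s * t : K.fixingSubgroup) : Qb ≃ₐ[ℚ] Qb) ∈ K'.fixingSubgroup :=
      K'.fixingSubgroup.mul_mem hs' ht'
    rw [hb₀ s hs', hb₀ t ht', hb₀ (s * t) hst]
    have := hb (⟨(s : Qb ≃ₐ[ℚ] Qb), hs'⟩, ⟨(t : Qb ≃ₐ[ℚ] Qb), ht'⟩)
    have h2 : resCochain₂ h c
        (⟨(s : Qb ≃ₐ[ℚ] Qb), hs'⟩, ⟨(t : Qb ≃ₐ[ℚ] Qb), ht'⟩) = c (s, t) := rfl
    rw [h2] at this
    rw [hca]
    show Additive.ofMul (c (s, t)) = _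
    rw [← this, hρa]
    simp only [mulD₁E, toMul_ofMul, ofMul_div, ofMul_mul]
    have e : (⟨(s : Qb ≃ₐ[ℚ] Qb), hs'⟩ : K'.fixingSubgroup) *
        ⟨(t : Qb ≃ₐ[ℚ] Qb), ht'⟩ = ⟨((s * t : K.fixingSubgroup) : Qb ≃ₐ[ℚ] Qb), hst⟩ := rfl
    rw [e]
    abel
  -- `c₁ = c - d b₀`
  set c₁ : K.fixingSubgroup × K.fixingSubgroup → Additive Qbˣ := siC1 ρ ca b₀ with hc₁def
  have hc₁N2 : ∀ g h, ∀ m ∈ N₀, c₁ (g, h * m) = c₁ (g, h) := by
    intro g h m hm
    simp only [hc₁def, siC1, Pi.neg_apply]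
    rw [hcaN2 g h m hm, hb₀N h m hm, ← mul_assoc, hb₀N (g * h) m hm]
  -- the normalising cochain is level
  have hAlvl : ∀ g, ∀ n ∈ N₀, ltA ρ H ca b₀ (g * n) = ltA ρ H ca b₀ g := by
    intro g n hn
    have hrn : ltR H (g * n) = ltR H g := ltR_mul H g (h0k n hn)
    simp only [ltA, siA, siA1, hrn, hb₀N g n hn, Pi.zero_apply]
    rw [← mul_assoc, ← hc₁def, hc₁N2 _ _ n hn]
  -- a level fixing the values of `ltA` at the representatives
  obtain ⟨N₅, hN₅, hN₅fix⟩ := lt_level_fix K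
    (fun q : K.fixingSubgroup ⧸ H => ((Additive.toMul (ltA ρ H ca b₀ q.out) : Qbˣ) : Qb))
  obtain ⟨N, hN, hNle⟩ := (lvlE K).directed N₀ hN₀ N₅ hN₅
  have hCN : ∀ g (q : K.fixingSubgroup ⧸ H), ∀ n ∈ N,
      ltC ρ H ca b₀ (g * n, q.out) = ltC ρ H ca b₀ (g, q.out) := by
    intro g q n hn
    have hn0 : n ∈ N₀ := (hNle hn).1
    have hfix : ρ n (ltA ρ H ca b₀ q.out) = ltA ρ H ca b₀ q.out := by
      rw [hρa]
      have := hN₅fix n (hNle hn).2 q
      have h3 : actU ((n : K.fixingSubgroup) : Qb ≃ₐ[ℚ] Qb)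
          (Additive.toMul (ltA ρ H ca b₀ q.out)) = Additive.toMul (ltA ρ H ca b₀ q.out) :=
        Units.ext this
      rw [h3]
      rfl
    have e2 : g * n * q.out = (g * q.out) * ((q.out)⁻¹ * n * q.out) := by group
    simp only [ltC]
    rw [hcaN1 _ _ _ hn0, hAlvl g n hn0, e2, hAlvl _ _ (hN₀n.conj_mem' _ hn0 _), map_mul,
      Module.End.mul_apply, hfix]
  have hElvl : ∀ g, ∀ n ∈ N, ltE ρ H ca b₀ (g * n) = ltE ρ H ca b₀ g := by
    intro g n hn
    simp only [ltE, ltY]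
    rw [hAlvl g n (hNle hn).1]
    congr 1
    exact Finset.sum_congr rfl (fun q _ => hCN g q n hn)
  refine ⟨fun g => Additive.toMul (ltE ρ H ca b₀ g), ⟨N, hN, fun g n hn => ?_⟩, ?_⟩
  · show Additive.toMul (ltE ρ H ca b₀ (g * n)) = Additive.toMul (ltE ρ H ca b₀ g)
    rw [hElvl g n hn]
  · rintro ⟨g, k⟩
    have := lt_core ρ H ca hcacoc b₀ hbS g k
    rw [hcard] at this
    show mulD₁E K _ (g, k) = c (g, k) ^ H.index
    have h2 := congrArg Additive.toMul this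
    rw [hρa] at h2
    simp only [hca, toMul_add, toMul_sub, toMul_ofMul, toMul_nsmul] at h2
    rw [h2]
    simp only [mulD₁E]
    generalize actU (g : Qb ≃ₐ[ℚ] Qb) (Additive.toMul (ltE ρ H ca b₀ k)) = A
    generalize Additive.toMul (ltE ρ H ca b₀ (g * k)) = B
    generalize Additive.toMul (ltE ρ H ca b₀ g) = C
    have hab : ∀ (a b c : Additive Qbˣ), a + c - b = a - b + c := by
      intros; abel
    exact hab (Additive.ofMul A) (Additive.ofMul B) (Additive.ofMul C)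

/-- Level coboundaries are closed under integer powers. -/
theorem lt_isLvlMulCoboundary₂E_zpow {E : IntermediateField ℚ Qb}
    {c : E.fixingSubgroup × E.fixingSubgroup → Qbˣ} (h : IsLvlMulCoboundary₂E E c) (k : ℤ) :
    IsLvlMulCoboundary₂E E (fun x => c x ^ k) := by
  obtain ⟨x, ⟨N, hN, hxN⟩, hx⟩ := h
  refine ⟨fun g => x g ^ k, ⟨N, hN, fun g n hn => ?_⟩, fun gh => ?_⟩
  · show x (g * n) ^ k = x g ^ k
    rw [hxN g n hn]
  · show mulD₁E E (fun g => x g ^ k) gh = c gh ^ k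
    rw [← hx gh]
    simp only [mulD₁E, map_zpow, div_zpow, mul_zpow]

/-- If `c ^ m` and `c ^ n` are level coboundaries with `m`, `n` coprime, so is `c`. -/
theorem lt_isLvlMulCoboundary₂E_of_coprime {E : IntermediateField ℚ Qb}
    {c : E.fixingSubgroup × E.fixingSubgroup → Qbˣ} {m n : ℕ} (hmn : Nat.Coprime m n)
    (hm : IsLvlMulCoboundary₂E E (fun x => c x ^ m))
    (hn : IsLvlMulCoboundary₂E E (fun x => c x ^ n)) : IsLvlMulCoboundary₂E E c := by
  have h1 := IsLvlMulCoboundary₂E.mul (lt_isLvlMulCoboundary₂E_zpow hm (Nat.gcdA m n))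
    (lt_isLvlMulCoboundary₂E_zpow hn (Nat.gcdB m n))
  refine isLvlMulCoboundary₂E_congr ?_ h1
  funext x
  have hb := Nat.gcd_eq_gcd_ab m n
  rw [hmn.gcd_eq_one] at hb
  show (c x ^ m) ^ Nat.gcdA m n * (c x ^ n) ^ Nat.gcdB m n = c x
  rw [← zpow_natCast, ← zpow_natCast, ← zpow_mul, ← zpow_mul, ← zpow_add, ← hb]
  simp

/-- **Level transfer**, coprime form. -/
theorem levelTransfer_coprime (K K' : IntermediateField ℚ Qb) (h : K ≤ K')
    [FiniteDimensional ℚ K'] (c : K.fixingSubgroup × K.fixingSubgroup → Qbˣ)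
    (hc : IsBrCocycle K c) (n : ℕ)
    (hcop : Nat.Coprime (K'.fixingSubgroup.subgroupOf K.fixingSubgroup).index n)
    (hn : IsLvlMulCoboundary₂E K (fun x => c x ^ n))
    (hres : IsLvlMulCoboundary₂E K' (resCochain₂ h c)) : IsLvlMulCoboundary₂E K c :=
  lt_isLvlMulCoboundary₂E_of_coprime hcop (levelTransfer K K' h c hc hres) hn

end

end Fermat.Agent.H2
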